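import Fermat.Agent.MU.S56.W3.SO.Defs

section MergeWrap_S56_W3_SO_Tangent_Red -- from S56/W3/SO/Tangent/Red.lean

set_option autoImplicit false

namespace Fermat.Agent.S56.SO

open Fermat.Agent.F4 ExtCitation
open scoped TensorProduct

section Red

variable {k : Type} [Field k] {V : Type} [AddCommGroup V] [Module k V]

/-- The constant part of an element of `k[ε] ⊗ V`. -/
noncomputable def redFst : (DualNumber k ⊗[k] V) →ₗ[k] V :=
  TensorProduct.lift ((LinearMap.lsmul k V).comp (TrivSqZeroExt.fstHom k k k).toLinearMap)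

/-- The `ε`-part of an element of `k[ε] ⊗ V`. -/
noncomputable def redSnd : (DualNumber k ⊗[k] V) →ₗ[k] V :=
  TensorProduct.lift ((LinearMap.lsmul k V).comp (TrivSqZeroExt.sndHom k k))

@[simp] theorem redFst_tmul (a : DualNumber k) (v : V) :
    redFst (a ⊗ₜ[k] v) = TrivSqZeroExt.fst a • v := rfl

@[simp] theorem redSnd_tmul (a : DualNumber k) (v : V) :
    redSnd (a ⊗ₜ[k] v) = TrivSqZeroExt.snd a • v := rfl

theorem redFst_smul (a : DualNumber k) (u : DualNumber k ⊗[k] V) :
    redFst (a • u) = TrivSqZeroExt.fst a • redFst u := by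
  induction u using TensorProduct.induction_on with
  | zero => simp
  | tmul b v =>
    rw [TensorProduct.smul_tmul', redFst_tmul, redFst_tmul, smul_eq_mul, TrivSqZeroExt.fst_mul,
      mul_smul]
  | add x y hx hy => rw [smul_add, map_add, map_add, hx, hy, smul_add]

theorem redSnd_smul (a : DualNumber k) (u : DualNumber k ⊗[k] V) :
    redSnd (a • u) = TrivSqZeroExt.fst a • redSnd u + TrivSqZeroExt.snd a • redFst u := by
  induction u using TensorProduct.induction_on with
  | zero => simp
  | tmul b v =>
    rw [TensorProduct.smul_tmul', redSnd_tmul, redSnd_tmul, redFst_tmul, smul_eq_mul,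
      DualNumber.snd_mul, add_smul, mul_smul, mul_smul]
  | add x y hx hy =>
    rw [smul_add, map_add, map_add, map_add, hx, hy, smul_add, smul_add]
    abel

theorem redFst_baseChange (f : Module.End k V) (u : DualNumber k ⊗[k] V) :
    redFst (f.baseChange (DualNumber k) u) = f (redFst u) := by
  induction u using TensorProduct.induction_on with
  | zero => simp
  | tmul b v => rw [LinearMap.baseChange_tmul, redFst_tmul, redFst_tmul, map_smul]
  | add x y hx hy => rw [map_add, map_add, map_add, hx, hy, map_add]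

theorem redSnd_baseChange (f : Module.End k V) (u : DualNumber k ⊗[k] V) :
    redSnd (f.baseChange (DualNumber k) u) = f (redSnd u) := by
  induction u using TensorProduct.induction_on with
  | zero => simp
  | tmul b v => rw [LinearMap.baseChange_tmul, redSnd_tmul, redSnd_tmul, map_smul]
  | add x y hx hy => rw [map_add, map_add, map_add, hx, hy, map_add]

/-- The decomposition `u = 1 ⊗ u₀ + ε • (1 ⊗ u₁)`. -/
theorem eq_redFst_add_redSnd (u : DualNumber k ⊗[k] V) :
    u = (1 : DualNumber k) ⊗ₜ[k] redFst u
      + (DualNumber.eps : DualNumber k) • ((1 : DualNumber k) ⊗ₜ[k] redSnd u) := by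
  induction u using TensorProduct.induction_on with
  | zero => simp
  | tmul b v =>
    rw [redFst_tmul, redSnd_tmul, TensorProduct.smul_tmul', smul_eq_mul, mul_one,
      TensorProduct.tmul_smul, TensorProduct.tmul_smul, TensorProduct.smul_tmul',
      TensorProduct.smul_tmul', ← TensorProduct.add_tmul]
    congr 1
    apply TrivSqZeroExt.ext
    · simp [DualNumber.fst_eps]
    · simp [DualNumber.snd_eps]
  | add x y hx hy =>
    conv_lhs => rw [hx, hy]
    rw [map_add, map_add, TensorProduct.tmul_add, TensorProduct.tmul_add, smul_add]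
    abel

theorem eq_zero_of_red {u : DualNumber k ⊗[k] V} (h0 : redFst u = 0) (h1 : redSnd u = 0) :
    u = 0 := by
  rw [eq_redFst_add_redSnd u, h0, h1]
  simp

theorem red_ext {u u' : DualNumber k ⊗[k] V} (h0 : redFst u = redFst u')
    (h1 : redSnd u = redSnd u') : u = u' := by
  rw [← sub_eq_zero]
  apply eq_zero_of_red
  · rw [map_sub, h0, sub_self]
  · rw [map_sub, h1, sub_self]

@[simp] theorem redFst_one_tmul (v : V) : redFst ((1 : DualNumber k) ⊗ₜ[k] v) = v := by
  rw [redFst_tmul, TrivSqZeroExt.fst_one, one_smul]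

@[simp] theorem redSnd_one_tmul (v : V) : redSnd ((1 : DualNumber k) ⊗ₜ[k] v) = 0 := by
  rw [redSnd_tmul, TrivSqZeroExt.snd_one, zero_smul]

theorem redFst_eps_smul (u : DualNumber k ⊗[k] V) :
    redFst ((DualNumber.eps : DualNumber k) • u) = 0 := by
  rw [redFst_smul, DualNumber.fst_eps, zero_smul]

theorem redSnd_eps_smul (u : DualNumber k ⊗[k] V) :
    redSnd ((DualNumber.eps : DualNumber k) • u) = redFst u := by
  rw [redSnd_smul, DualNumber.fst_eps, DualNumber.snd_eps, zero_smul, zero_add, one_smul]

end Red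

section DefEnd

variable {k : Type} [Field k] (ρbar : ResidualGaloisRep k)

/-- The constant part of `(1 + ε c) ρbar σ`. -/
theorem redFst_defEnd (c : Module.End k ρbar.V) (σ : GQ) (u : DualNumber k ⊗[k] ρbar.V) :
    redFst (defEnd ρbar c σ u) = ρbar.ρ σ (redFst u) := by
  unfold defEnd
  rw [LinearMap.add_apply, LinearMap.smul_apply, map_add, redFst_eps_smul, add_zero,
    redFst_baseChange]

/-- The `ε`-part of `(1 + ε c) ρbar σ`. -/
theorem redSnd_defEnd (c : Module.End k ρbar.V) (σ : GQ) (u : DualNumber k ⊗[k] ρbar.V) :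
    redSnd (defEnd ρbar c σ u) = ρbar.ρ σ (redSnd u) + c (ρbar.ρ σ (redFst u)) := by
  unfold defEnd
  rw [LinearMap.add_apply, LinearMap.smul_apply, map_add, redSnd_eps_smul, redSnd_baseChange,
    redFst_baseChange]
  rfl

end DefEnd

end Fermat.Agent.S56.SO
end MergeWrap_S56_W3_SO_Tangent_Red
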